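import Mathlib.Algebra.Order.Ring.GeomSum
import Mathlib.Analysis.SpecialFunctions.Log.Basic
import Mathlib.NumberTheory.ArithmeticFunction.Misc
import Mathlib.Algebra.BigOperators.Field

/-!
# Superabundant numbers

`n` is superabundant if `σ m / m < σ n / n` for all `0 < m < n`. Every initial segment has its
maximum of `σ m / m` at a superabundant number, so there are infinitely many; their exponents
decrease along the primes, as moving a unit of exponent from `q` to a smaller prime `p` gains.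
-/

set_option autoImplicit false

noncomputable section

namespace FA.Superabundant

open Finset

/-- `σ n / n`. -/
def abundancy (n : ℕ) : ℝ := (∑ d ∈ n.divisors, (d : ℝ)) / n

/-- `σ m / m < σ n / n` for all positive `m < n`. -/
def IsSuperabundant (n : ℕ) : Prop :=
  0 < n ∧ ∀ m, 0 < m → m < n → abundancy m < abundancy n

theorem exists_superabundant_max {N : ℕ} (hN : 0 < N) :
    ∃ m, IsSuperabundant m ∧ m ≤ N ∧ ∀ k, 0 < k → k ≤ N → abundancy k ≤ abundancy m := by
  obtain ⟨a, ha, hmax⟩ := exists_max_image (Icc 1 N) abundancy ⟨1, mem_Icc.2 ⟨le_rfl, hN⟩⟩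
  have hne : ((Icc 1 N).filter fun k => abundancy a ≤ abundancy k).Nonempty :=
    ⟨a, mem_filter.2 ⟨ha, le_rfl⟩⟩
  obtain ⟨m, hm⟩ : ∃ m, m = ((Icc 1 N).filter fun k => abundancy a ≤ abundancy k).min' hne :=
    ⟨_, rfl⟩
  obtain ⟨hmI, ham⟩ := mem_filter.1 (hm ▸ min'_mem _ hne)
  rw [mem_Icc] at hmI
  refine ⟨m, ⟨hmI.1, fun k hk0 hkm => ?_⟩, hmI.2,
    fun k hk0 hkN => (hmax k (mem_Icc.2 ⟨hk0, hkN⟩)).trans ham⟩
  by_contra hcon
  have hk : k ∈ (Icc 1 N).filter fun k => abundancy a ≤ abundancy k :=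
    mem_filter.2 ⟨mem_Icc.2 ⟨hk0, by omega⟩, ham.trans (not_lt.1 hcon)⟩
  have := min'_le _ k hk
  omega

theorem abundancy_lt_two_mul {m : ℕ} (hm : 0 < m) : abundancy m < abundancy (2 * m) := by
  have h : ∑ d ∈ m.divisors, (2 * d : ℝ) + 1 ≤ ∑ d ∈ (2 * m).divisors, (d : ℝ) := by
    have hnot : 1 ∉ m.divisors.image (2 * ·) := by simp
    have hsub : insert 1 (m.divisors.image (2 * ·)) ⊆ (2 * m).divisors := by
      refine insert_subset (Nat.one_mem_divisors.2 (by omega)) fun d hd => ?_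
      obtain ⟨e, he, rfl⟩ := mem_image.1 hd
      exact Nat.mem_divisors.2 ⟨Nat.mul_dvd_mul_left 2 (Nat.dvd_of_mem_divisors he), by omega⟩
    refine le_trans ?_ (sum_le_sum_of_subset_of_nonneg hsub fun d _ _ => Nat.cast_nonneg d)
    rw [sum_insert hnot, sum_image fun a _ b _ (hab : 2 * a = 2 * b) => by omega]
    push_cast
    linarith
  rw [← mul_sum] at h
  have hm' : (0 : ℝ) < m := Nat.cast_pos.2 hm
  rw [abundancy, abundancy, Nat.cast_mul, Nat.cast_ofNat, div_lt_div_iff₀ hm' (by linarith)]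
  nlinarith

/-- **There are infinitely many superabundant numbers.** -/
theorem infinite_superabundant : {n | IsSuperabundant n}.Infinite := by
  refine Set.infinite_of_forall_exists_gt fun b => ?_
  obtain ⟨m, hm, hmb, hmax⟩ := exists_superabundant_max b.succ_pos
  obtain ⟨k, hk, hk2, hkmax⟩ := exists_superabundant_max (show 0 < 2 * m by have := hm.1; omega)
  refine ⟨k, hk, not_le.1 fun hle => ?_⟩
  exact (abundancy_lt_two_mul hm.1).not_ge
    ((hkmax (2 * m) (by have := hm.1; omega) le_rfl).trans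
      (hmax k hk.1 (hle.trans b.le_succ)))

theorem abundancy_mul {a b : ℕ} (h : a.Coprime b) :
    abundancy (a * b) = abundancy a * abundancy b := by
  rw [abundancy, abundancy, abundancy, div_mul_div_comm, ← Nat.cast_mul, ← Nat.cast_sum,
    ← Nat.cast_sum, ← Nat.cast_sum, Nat.Coprime.sum_divisors_mul h, Nat.cast_mul]

theorem abundancy_prime_pow {p : ℕ} (hp : p.Prime) (k : ℕ) :
    abundancy (p ^ k) = ∑ i ∈ range (k + 1), ((p : ℝ)⁻¹) ^ i := by
  have hp0 : (p : ℝ) ≠ 0 := Nat.cast_ne_zero.2 hp.ne_zero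
  rw [abundancy, Nat.divisors_prime_pow hp, sum_map, sum_div,
    ← sum_range_reflect (fun i => ((p : ℝ)⁻¹) ^ i)]
  refine sum_congr rfl fun i hi => ?_
  have hik : i ≤ k := Nat.lt_succ_iff.1 (mem_range.1 hi)
  simp only [Function.Embedding.coeFn_mk, Nat.cast_pow]
  rw [show k + 1 - 1 - i = k - i by omega, inv_pow, ← one_div,
    div_eq_div_iff (pow_ne_zero _ hp0) (pow_ne_zero _ hp0), one_mul, ← pow_add,
    Nat.add_sub_cancel' hik]

theorem abundancy_pos {n : ℕ} (hn : 0 < n) : 0 < abundancy n :=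
  div_pos (sum_pos (fun _ hd => Nat.cast_pos.2 (Nat.pos_of_mem_divisors hd))
    ⟨1, Nat.one_mem_divisors.2 hn.ne'⟩) (Nat.cast_pos.2 hn)

/-- **Alaoglu and Erdős: the exponents of a superabundant number decrease.** -/
theorem factorization_le_of_lt {n p q : ℕ} (hn : IsSuperabundant n) (hp : p.Prime) (hq : q.Prime)
    (hpq : p < q) : n.factorization q ≤ n.factorization p := by
  by_contra hcon
  obtain ⟨b, hb⟩ : ∃ b, n.factorization q = b + 1 := ⟨n.factorization q - 1, by omega⟩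
  obtain ⟨a, ha⟩ : ∃ a, a = n.factorization p := ⟨_, rfl⟩
  have hab : a ≤ b := by omega
  obtain ⟨r, hr, hrq, hrp⟩ : ∃ r, n = q ^ (b + 1) * (p ^ a * r) ∧ q.Coprime r ∧ p.Coprime r := by
    obtain ⟨s, hs⟩ : ∃ s, n = q ^ (b + 1) * s ∧ s = ordCompl[q] n :=
      ⟨_, by rw [← hb, Nat.ordProj_mul_ordCompl_eq_self], rfl⟩
    refine ⟨ordCompl[p] s, ?_, ?_,
      Nat.coprime_ordCompl hp (hs.2 ▸ (Nat.ordCompl_pos q hn.1.ne').ne')⟩
    · have hsp : s.factorization p = a := by
        rw [hs.2, Nat.factorization_ordCompl, Finsupp.erase_ne hpq.ne, ha]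
      rw [← hsp, Nat.ordProj_mul_ordCompl_eq_self]
      exact hs.1
    · exact (Nat.coprime_ordCompl hq hn.1.ne').coprime_dvd_right
        (hs.2 ▸ Nat.ordCompl_dvd s p)
  have hr0 : 0 < r := by
    refine Nat.pos_of_ne_zero fun h => ?_
    have := hn.1
    rw [hr, h, mul_zero, mul_zero] at this
    exact this.false
  have hcop : q.Coprime p := (Nat.coprime_primes hq hp).2 hpq.ne'
  have hlt : q ^ b * (p ^ (a + 1) * r) < n := by
    have h0 : 0 < q ^ b * (p ^ a * r) :=
      Nat.mul_pos (pow_pos hq.pos b) (Nat.mul_pos (pow_pos hp.pos a) hr0)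
    calc q ^ b * (p ^ (a + 1) * r) = p * (q ^ b * (p ^ a * r)) := by ring
      _ < q * (q ^ b * (p ^ a * r)) := Nat.mul_lt_mul_of_pos_right hpq h0
      _ = n := by rw [hr]; ring
  have h := hn.2 _ (Nat.mul_pos (pow_pos hq.pos b) (Nat.mul_pos (pow_pos hp.pos _) hr0)) hlt
  rw [hr, abundancy_mul ((hcop.pow _ _).mul_right (hrq.pow_left _)),
    abundancy_mul (hrp.pow_left _), abundancy_mul ((hcop.pow _ _).mul_right (hrq.pow_left _)),
    abundancy_mul (hrp.pow_left _), abundancy_prime_pow hp, abundancy_prime_pow hp,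
    abundancy_prime_pow hq, abundancy_prime_pow hq] at h
  obtain ⟨x, hx⟩ : ∃ x : ℝ, x = (p : ℝ)⁻¹ := ⟨_, rfl⟩
  obtain ⟨y, hy⟩ : ∃ y : ℝ, y = (q : ℝ)⁻¹ := ⟨_, rfl⟩
  rw [← hx, ← hy, sum_range_succ (fun i => x ^ i) (a + 1),
    sum_range_succ (fun i => y ^ i) (b + 1)] at h
  have hy0 : 0 ≤ y := by rw [hy]; positivity
  have hyx : y ≤ x := by
    rw [hx, hy]
    exact inv_anti₀ (Nat.cast_pos.2 hp.pos) (Nat.cast_le.2 hpq.le)
  have hy1 : y ≤ 1 := by rw [hy]; exact inv_le_one_of_one_le₀ (Nat.one_le_cast.2 hq.one_le)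
  have key : y ^ (b + 1) * ∑ i ∈ range (a + 1), x ^ i ≤
      x ^ (a + 1) * ∑ i ∈ range (b + 1), y ^ i := by
    calc y ^ (b + 1) * ∑ i ∈ range (a + 1), x ^ i
        ≤ y ^ (a + 1) * ∑ i ∈ range (a + 1), x ^ i :=
          mul_le_mul_of_nonneg_right (pow_le_pow_of_le_one hy0 hy1 (by omega))
            (sum_nonneg fun i _ => pow_nonneg (hy0.trans hyx) i)
      _ ≤ x ^ (a + 1) * ∑ i ∈ range (a + 1), y ^ i := by
          rw [mul_sum, mul_sum]
          refine sum_le_sum fun i hi => ?_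
          obtain ⟨j, hj⟩ : ∃ j, a + 1 = i + j := ⟨a + 1 - i, by have := mem_range.1 hi; omega⟩
          rw [hj, pow_add, pow_add]
          calc y ^ i * y ^ j * x ^ i = y ^ i * x ^ i * y ^ j := by ring
            _ ≤ y ^ i * x ^ i * x ^ j :=
                mul_le_mul_of_nonneg_left (pow_le_pow_left₀ hy0 hyx j)
                  (mul_nonneg (pow_nonneg hy0 i) (pow_nonneg (hy0.trans hyx) i))
            _ = x ^ i * x ^ j * y ^ i := by ring
      _ ≤ x ^ (a + 1) * ∑ i ∈ range (b + 1), y ^ i := by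
          refine mul_le_mul_of_nonneg_left (sum_le_sum_of_subset_of_nonneg
            (range_subset_range.2 (by omega)) fun i _ _ => pow_nonneg hy0 i)
            (pow_nonneg (hy0.trans hyx) _)
  have hR := abundancy_pos hr0
  nlinarith [mul_le_mul_of_nonneg_left key hR.le]

/-- The prime divisors of a superabundant number are an initial segment of the primes. -/
theorem dvd_of_lt {n p q : ℕ} (hn : IsSuperabundant n) (hp : p.Prime) (hq : q.Prime)
    (hpq : p < q) (hqn : q ∣ n) : p ∣ n :=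
  Nat.dvd_of_factorization_pos (((hq.factorization_pos_of_dvd hn.1.ne' hqn).trans_le
    (factorization_le_of_lt hn hp hq hpq)).ne')

end FA.Superabundant
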