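import Fermat.Agent.Superabundant.Basic
import Fermat.Agent.Robin.Lower
import Fermat.Agent.Root.SummaryMertensThird

/-!
# Robin's criterion on superabundant numbers and Lagarias's criterion

If `c log log n ≤ σ n / n`, the same holds at the superabundant number below `n` maximising
`σ m / m`, so failures of Robin's inequality and Gronwall's limit pass to these numbers.
Lagarias's bound `H_n + exp H_n log H_n` exceeds `e ^ γ n log log n` by at most `O(n / log n)`.
-/

set_option autoImplicit false

noncomputable section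

namespace FA.Superabundant

open Filter Real
open scoped Topology

theorem frequently_superabundant {c : ℝ} (hc : 0 ≤ c)
    (h : ∃ᶠ n : ℕ in atTop, c * log (log n) ≤ abundancy n) :
    ∃ᶠ n : ℕ in atTop, IsSuperabundant n ∧ c * log (log n) ≤ abundancy n := by
  rw [frequently_atTop] at h ⊢
  intro b
  obtain ⟨m₀, hm₀, hbm⟩ := infinite_superabundant.exists_gt (max b 16)
  obtain ⟨n, hn, hfn⟩ := h m₀
  obtain ⟨m, hm, hmn, hmax⟩ := exists_superabundant_max (hm₀.1.trans_le hn)
  have hm0m : m₀ ≤ m := not_lt.1 fun hlt =>
    ((hm₀.2 m hm.1 hlt).trans_le (hmax m₀ hm₀.1 hn)).false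
  refine ⟨m, by omega, hm, le_trans ?_ (hfn.trans (hmax n (hm₀.1.trans_le hn) le_rfl))⟩
  have h16 : (16 : ℝ) ≤ m := by exact_mod_cast (show 16 ≤ m by omega)
  refine mul_le_mul_of_nonneg_left (log_le_log (log_pos (by linarith))
    (log_le_log (by linarith) (Nat.cast_le.2 hmn))) hc

theorem sigma_div_eq (n : ℕ) :
    (∑ d ∈ n.divisors, (d : ℝ)) / (n * log (log n)) = abundancy n / log (log n) :=
  (div_div _ _ _).symm

/-- **Robin's criterion on superabundant numbers** (Akbary and Friggstad), in eventual form. -/
theorem riemannHypothesis_iff : RiemannHypothesis ↔ ∀ᶠ n : ℕ in atTop, IsSuperabundant n →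
    (∑ d ∈ n.divisors, (d : ℝ)) < exp eulerMascheroniConstant * n * log (log n) := by
  refine ⟨fun h => (FA.Robin.eventually_robin h).mono fun n hn _ => hn, fun h => ?_⟩
  by_contra hRH
  have hfail : ∃ᶠ n : ℕ in atTop,
      exp eulerMascheroniConstant * log (log n) ≤ abundancy n := by
    intro hev
    refine hRH (FA.Robin.riemannHypothesis_of_robin ?_)
    filter_upwards [hev, eventually_gt_atTop 0] with n hn hn0
    rw [abundancy, le_div_iff₀ (Nat.cast_pos.2 hn0)] at hn
    linarith
  obtain ⟨n, ⟨hn, hle⟩, hn'⟩ :=
    ((frequently_superabundant (exp_pos _).le hfail).and_eventually h).exists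
  have hlt := hn' hn
  rw [abundancy, le_div_iff₀ (Nat.cast_pos.2 hn.1)] at hle
  linarith

/-- **Gronwall's limit is reached along the superabundant numbers.** -/
theorem frequently_ge {ε : ℝ} (hε : 0 < ε) : ∃ᶠ n : ℕ in atTop, IsSuperabundant n ∧
    (exp eulerMascheroniConstant - ε) * log (log n) ≤ abundancy n := by
  obtain ⟨δ, hδ⟩ : ∃ δ, δ = min ε (exp eulerMascheroniConstant / 2) := ⟨_, rfl⟩
  have hδ0 : 0 < δ := hδ ▸ lt_min hε (by positivity)
  have hpos : ∀ᶠ n : ℕ in atTop, 0 < log (log (n : ℝ)) :=
    (tendsto_log_atTop.comp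
      (tendsto_log_atTop.comp tendsto_natCast_atTop_atTop)).eventually_gt_atTop 0
  have h1 : ∃ᶠ n : ℕ in atTop, exp eulerMascheroniConstant - δ <
      (∑ d ∈ n.divisors, (d : ℝ)) / (n * log (log n)) :=
    frequently_lt_of_lt_limsup
      (isCoboundedUnder_le_of_eventually_le (l := atTop) (x := 0) (hpos.mono fun n hn =>
        div_nonneg (Finset.sum_nonneg fun d _ => Nat.cast_nonneg d) (by positivity)))
      (by rw [FA.MertensThird.Summary.gronwall]; linarith)
  have h2 : ∃ᶠ n : ℕ in atTop,
      (exp eulerMascheroniConstant - δ) * log (log n) ≤ abundancy n :=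
    (h1.and_eventually hpos).mono fun n ⟨hn, hL⟩ => by
      rw [sigma_div_eq, lt_div_iff₀ hL] at hn
      exact hn.le
  refine (((frequently_superabundant ?_ h2)).and_eventually hpos).mono fun n ⟨⟨hn, hle⟩, hL⟩ =>
    ⟨hn, le_trans (mul_le_mul_of_nonneg_right ?_ hL.le) hle⟩
  · have : δ ≤ exp eulerMascheroniConstant / 2 := hδ ▸ min_le_right _ _
    linarith [exp_pos eulerMascheroniConstant]
  · have : δ ≤ ε := hδ ▸ min_le_left _ _
    linarith

/-- **Lagarias's criterion**, in eventual form. -/
theorem riemannHypothesis_iff_harmonic : RiemannHypothesis ↔ ∀ᶠ n : ℕ in atTop,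
    (∑ d ∈ n.divisors, (d : ℝ)) ≤
      (harmonic n : ℝ) + exp (harmonic n) * log (harmonic n) := by
  refine ⟨fun h => ?_, fun h => ?_⟩
  · filter_upwards [FA.Robin.eventually_robin h, eventually_ge_atTop 16] with n hn h16
    have h16' : (16 : ℝ) ≤ n := by exact_mod_cast h16
    have hγ : eulerMascheroniConstant < (harmonic n : ℝ) - log n := by
      have := eulerMascheroniConstant_lt_eulerMascheroniSeq' n
      rwa [eulerMascheroniSeq', if_neg (by omega)] at this
    have hγ0 := one_half_lt_eulerMascheroniConstant
    have hl : 1 ≤ log (n : ℝ) := by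
      rw [le_log_iff_exp_le (by linarith)]
      linarith [exp_one_lt_d9]
    have hH : exp eulerMascheroniConstant * n ≤ exp (harmonic n : ℝ) := by
      rw [← exp_log (show (0 : ℝ) < n by linarith), ← exp_add]
      exact exp_le_exp.2 (by linarith)
    refine hn.le.trans (le_trans ?_ (le_add_of_nonneg_left (by linarith)))
    exact mul_le_mul hH (log_le_log (by linarith) (by linarith)) (log_nonneg hl) (exp_pos _).le
  refine FA.Robin.riemannHypothesis_of_robin_slack (K := 8) (by norm_num) ?_
  have hcast := tendsto_natCast_atTop_atTop (R := ℝ)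
  filter_upwards [h,
    hcast.eventually ((isLittleO_pow_log_id_atTop (n := 2)).def (show (0 : ℝ) < 1 / 4 by norm_num)),
    hcast.eventually ((tendsto_log_atTop.comp tendsto_log_atTop).eventually_ge_atTop 1),
    hcast.eventually (tendsto_log_atTop.eventually_ge_atTop 1), eventually_ge_atTop 1]
    with n hn hsq hLL hL hn1
  simp only [Function.comp_apply] at hLL
  have hn' : (1 : ℝ) ≤ n := by exact_mod_cast hn1
  rw [norm_of_nonneg (sq_nonneg (log (n : ℝ))), id_eq, norm_of_nonneg (by linarith)] at hsq
  obtain ⟨H, hH⟩ : ∃ H : ℝ, H = (harmonic n : ℝ) := ⟨_, rfl⟩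
  obtain ⟨L, hLd⟩ : ∃ L : ℝ, L = log (n : ℝ) := ⟨_, rfl⟩
  rw [← hH] at hn
  rw [← hLd] at hL hLL hsq ⊢
  have hlow : L ≤ H := by
    rw [hLd, hH]
    refine le_trans (log_le_log (by linarith) ?_) (log_add_one_le_harmonic n)
    exact_mod_cast n.le_succ
  have hup : H ≤ log ((n : ℝ) + 1) + eulerMascheroniConstant := by
    have := eulerMascheroniSeq_lt_eulerMascheroniConstant n
    rw [eulerMascheroniSeq, ← hH] at this
    linarith
  have hγ := eulerMascheroniConstant_lt_two_thirds
  have hγ0 := one_half_lt_eulerMascheroniConstant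
  have hlog : log ((n : ℝ) + 1) ≤ L + 1 := by
    have h1 := log_le_sub_one_of_pos (show (0 : ℝ) < ((n : ℝ) + 1) / n by positivity)
    rw [log_div (by positivity) (by positivity), ← hLd] at h1
    have h2 : ((n : ℝ) + 1) / n ≤ 2 := by rw [div_le_iff₀ (by linarith)]; linarith
    linarith
  have hexp : exp H ≤ exp eulerMascheroniConstant * (n + 1) := by
    calc exp H ≤ exp (log ((n : ℝ) + 1) + eulerMascheroniConstant) := exp_le_exp.2 hup
      _ = exp eulerMascheroniConstant * (n + 1) := by
          rw [exp_add, exp_log (by linarith)]; ring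
  have hlH : log H ≤ log L + 2 / L := by
    have h1 := log_le_sub_one_of_pos (show 0 < H / L by
      exact div_pos (by linarith) (by linarith))
    rw [log_div (by linarith) (by linarith)] at h1
    have h2 : H / L - 1 ≤ 2 / L := by
      rw [div_sub_one (by linarith), div_le_div_iff_of_pos_right (by linarith)]
      linarith
    linarith
  have hLle : log L ≤ L := (log_le_sub_one_of_pos (by linarith)).trans (by linarith)
  have he : 1 ≤ exp eulerMascheroniConstant := one_le_exp (by linarith)
  refine hn.trans ?_
  have hmul : exp H * log H ≤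
      exp eulerMascheroniConstant * (n + 1) * (log L + 2 / L) :=
    mul_le_mul hexp hlH (log_nonneg (by linarith)) (by positivity)
  have hkey : H + exp eulerMascheroniConstant * (n + 1) * (log L + 2 / L) ≤
      exp eulerMascheroniConstant * n * log L + exp eulerMascheroniConstant * n * (8 / L) := by
    have hQ : L * L ≤ 1 / 4 * n := by nlinarith
    have h1 : (3 : ℝ) * L + L + 2 ≤ 6 * n / L := by
      rw [le_div_iff₀ (by linarith)]; nlinarith
    have h2 : H ≤ exp eulerMascheroniConstant * (3 * L) := by nlinarith
    have h3 : exp eulerMascheroniConstant * log L ≤ exp eulerMascheroniConstant * L :=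
      mul_le_mul_of_nonneg_left hLle (by linarith)
    have h4 : exp eulerMascheroniConstant * (2 / L) ≤ exp eulerMascheroniConstant * 2 :=
      mul_le_mul_of_nonneg_left (div_le_self zero_le_two hL) (by linarith)
    have h5 := mul_le_mul_of_nonneg_left h1 (show 0 ≤ exp eulerMascheroniConstant by linarith)
    have h6 : exp eulerMascheroniConstant * n * (8 / L) =
        exp eulerMascheroniConstant * n * (2 / L) + exp eulerMascheroniConstant * (6 * n / L) := by
      ring
    linarith
  calc H + exp H * log H
      ≤ exp eulerMascheroniConstant * n * log L + exp eulerMascheroniConstant * n * (8 / L) := by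
        linarith
    _ ≤ exp eulerMascheroniConstant * n * (log L * (1 + 8 / L)) := by
        rw [← mul_add, mul_add (log L), mul_one]
        refine mul_le_mul_of_nonneg_left ?_ (by positivity)
        linarith [le_mul_of_one_le_left (show (0 : ℝ) ≤ 8 / L by positivity) hLL]

end FA.Superabundant
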